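import Fermat.Agent.S18.CORE6652.PlaceLemmas

/-!
# S18 / package CORE (helper6652): admissible series (toolbox T3) and push-forward sums (T4)
-/

set_option autoImplicit false

noncomputable section

namespace Fermat.Agent.S18.CORE6652

open ModularCurve AlgebraicCurve Fermat.Agent.S18

/-! ### Finsupp push-forward bookkeeping -/

section md

open Classical in
theorem md_apply {α β : Type*} (r : α → β) (D : α →₀ ℤ) (b : β) :
    Finsupp.mapDomain r D b = ∑ a ∈ D.support, if r a = b then D a else 0 := by
  rw [Finsupp.mapDomain, Finsupp.sum_apply, Finsupp.sum]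
  refine Finset.sum_congr rfl fun a _ => ?_
  rw [Finsupp.single_apply]

variable {α β : Type*} (r : α → β) (D : α →₀ ℤ) (b : β)

theorem md_nonneg (h : ∀ a, r a = b → 0 ≤ D a) : 0 ≤ Finsupp.mapDomain r D b := by
  classical
  rw [md_apply]
  refine Finset.sum_nonneg fun a _ => ?_
  split_ifs with ha
  · exact h a ha
  · exact le_rfl

theorem md_eq_zero (h : ∀ a, r a = b → D a = 0) : Finsupp.mapDomain r D b = 0 := by
  classical
  rw [md_apply]
  refine Finset.sum_eq_zero fun a _ => ?_
  split_ifs with ha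
  · exact h a ha
  · rfl

theorem md_exists (h : Finsupp.mapDomain r D b ≠ 0) : ∃ a, r a = b ∧ D a ≠ 0 := by
  by_contra hcon
  push Not at hcon
  exact h (md_eq_zero r D b hcon)

theorem md_single_sub {a1 : α} (h1 : r a1 = b) :
    Finsupp.mapDomain r (D - Finsupp.single a1 (D a1)) b = Finsupp.mapDomain r D b - D a1 := by
  rw [Finsupp.mapDomain_sub, Finsupp.mapDomain_single, Finsupp.sub_apply, h1,
    Finsupp.single_eq_same]

theorem md_pos (h : ∀ a, r a = b → 0 ≤ D a) {a1 : α} (h1 : r a1 = b) (h2 : 1 ≤ D a1) :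
    1 ≤ Finsupp.mapDomain r D b := by
  classical
  have key := md_single_sub r D b h1
  have hnn : 0 ≤ Finsupp.mapDomain r (D - Finsupp.single a1 (D a1)) b := by
    refine md_nonneg _ _ _ fun a ha => ?_
    rw [Finsupp.sub_apply, Finsupp.single_apply]
    split_ifs with h'
    · subst h'; simp
    · simpa using h a ha
  omega

theorem md_zero_of_nonneg (h : ∀ a, r a = b → 0 ≤ D a) (h0 : Finsupp.mapDomain r D b = 0)
    {a : α} (ha : r a = b) : D a = 0 := by
  by_contra hne
  have h1 : 1 ≤ D a := by have := h a ha; omega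
  have := md_pos r D b h ha h1
  omega

theorem md_unique (h : ∀ a, r a = b → 0 ≤ D a) (h1 : Finsupp.mapDomain r D b = 1) {a1 : α}
    (ha1 : r a1 = b) (h2 : 1 ≤ D a1) :
    D a1 = 1 ∧ ∀ a, r a = b → a ≠ a1 → D a = 0 := by
  classical
  have key := md_single_sub r D b ha1
  have hnn' : ∀ a, r a = b → 0 ≤ (D - Finsupp.single a1 (D a1)) a := by
    intro a ha
    rw [Finsupp.sub_apply, Finsupp.single_apply]
    split_ifs with h'
    · subst h'; simp
    · simpa using h a ha
  have hnn := md_nonneg _ _ _ hnn'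
  have hD1 : D a1 = 1 := by omega
  refine ⟨hD1, fun a ha hne => ?_⟩
  have h0 : Finsupp.mapDomain r (D - Finsupp.single a1 (D a1)) b = 0 := by omega
  have := md_zero_of_nonneg _ _ _ hnn' h0 ha
  rw [Finsupp.sub_apply, Finsupp.single_apply, if_neg (Ne.symm hne)] at this
  simpa using this

theorem md_exists_unique (h : ∀ a, r a = b → 0 ≤ D a) (h1 : Finsupp.mapDomain r D b = 1) :
    ∃ a1, r a1 = b ∧ D a1 = 1 ∧ ∀ a, r a = b → a ≠ a1 → D a = 0 := by
  obtain ⟨a1, ha1, hne⟩ := md_exists r D b (by rw [h1]; exact one_ne_zero)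
  have h2 : 1 ≤ D a1 := by have := h a1 ha1; omega
  exact ⟨a1, ha1, md_unique r D b h h1 ha1 h2⟩

end md

/-! ### Admissible series -/

section adm

variable {L : Type*} [Field L] (A : ValuationSubring L)
variable (Fb : IntermediateField L (LaurentSeries L))
variable (Ft : IntermediateField (IsLocalRing.ResidueField A)
  (LaurentSeries (IsLocalRing.ResidueField A)))

/-- `genOf` as a ring homomorphism. -/
def genHom : Adm A Fb Ft →+* Fb where
  toFun := genOf A Fb Ft
  map_one' := Subtype.ext (map_one (coeffMap A.subtype))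
  map_mul' _ _ := Subtype.ext (map_mul (coeffMap A.subtype) _ _)
  map_zero' := Subtype.ext (map_zero (coeffMap A.subtype))
  map_add' _ _ := Subtype.ext (map_add (coeffMap A.subtype) _ _)

/-- `redOf` as a ring homomorphism. -/
def redHom : Adm A Fb Ft →+* Ft where
  toFun := redOf A Fb Ft
  map_one' := Subtype.ext (map_one (coeffMap (IsLocalRing.residue A)))
  map_mul' _ _ := Subtype.ext (map_mul (coeffMap (IsLocalRing.residue A)) _ _)
  map_zero' := Subtype.ext (map_zero (coeffMap (IsLocalRing.residue A)))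
  map_add' _ _ := Subtype.ext (map_add (coeffMap (IsLocalRing.residue A)) _ _)

variable {A Fb Ft}

theorem genOf_eq (y : Adm A Fb Ft) : genOf A Fb Ft y = genHom A Fb Ft y := rfl

theorem redOf_eq (y : Adm A Fb Ft) : redOf A Fb Ft y = redHom A Fb Ft y := rfl

theorem genHom_injective : Function.Injective (genHom A Fb Ft) := by
  rw [injective_iff_map_eq_zero]
  intro y hy
  have h : coeffMap A.subtype (y : LaurentSeries A) = 0 := congrArg Subtype.val hy
  apply Subtype.ext
  ext n
  have hn := congrArg (fun s => HahnSeries.coeff s n) h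
  simp only [coeffMap_coeff, HahnSeries.coeff_zero] at hn
  have : ((y : LaurentSeries A).coeff n : L) = 0 := hn
  exact_mod_cast this

theorem genHom_ne_zero_of_redHom_ne_zero {y : Adm A Fb Ft} (h : redHom A Fb Ft y ≠ 0) :
    genHom A Fb Ft y ≠ 0 := by
  intro h0
  have : y = 0 := genHom_injective (by rw [h0, map_zero])
  exact h (by rw [this, map_zero])

variable (A Fb Ft) in
/-- The constant admissible series. -/
def constAdm (a : A) : Adm A Fb Ft :=
  ⟨HahnSeries.C a, by
    refine ⟨?_, ?_⟩
    · have : coeffMap A.subtype (HahnSeries.C a) = algebraMap L (LaurentSeries L) (a : L) := by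
        rw [algebraMap_laurentSeries_eq_single, HahnSeries.C_apply, coeffMap_single]; rfl
      rw [this]; exact Fb.algebraMap_mem _
    · have : coeffMap (IsLocalRing.residue A) (HahnSeries.C a)
          = algebraMap _ (LaurentSeries (IsLocalRing.ResidueField A))
            (IsLocalRing.residue A a) := by
        rw [algebraMap_laurentSeries_eq_single, HahnSeries.C_apply, coeffMap_single]
      rw [this]; exact Ft.algebraMap_mem _⟩

theorem genHom_constAdm (a : A) : genHom A Fb Ft (constAdm A Fb Ft a) = algebraMap L Fb (a : L) := by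
  apply Subtype.ext
  show coeffMap A.subtype (HahnSeries.C a) = algebraMap L (LaurentSeries L) (a : L)
  rw [algebraMap_laurentSeries_eq_single, HahnSeries.C_apply, coeffMap_single]; rfl

theorem redHom_constAdm (a : A) : redHom A Fb Ft (constAdm A Fb Ft a)
    = algebraMap (IsLocalRing.ResidueField A) Ft (IsLocalRing.residue A a) := by
  apply Subtype.ext
  show coeffMap (IsLocalRing.residue A) (HahnSeries.C a)
    = algebraMap _ (LaurentSeries (IsLocalRing.ResidueField A)) (IsLocalRing.residue A a)
  rw [algebraMap_laurentSeries_eq_single, HahnSeries.C_apply, coeffMap_single]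

variable (A) in
/-- Trichotomy for a nonzero constant. -/
theorem const_trichotomy {c : L} (hc : c ≠ 0) :
    (∃ a : A, (a : L) = c ∧ IsLocalRing.residue A a = 0) ∨
    (∃ a : A, (a : L) = c⁻¹ ∧ IsLocalRing.residue A a = 0) ∨
    (∃ a : A, (a : L) = c ∧ IsLocalRing.residue A a ≠ 0) := by
  rcases A.mem_or_inv_mem c with h | h
  · by_cases h0 : IsLocalRing.residue A ⟨c, h⟩ = 0
    · exact Or.inl ⟨⟨c, h⟩, rfl, h0⟩
    · exact Or.inr (Or.inr ⟨⟨c, h⟩, rfl, h0⟩)
  · by_cases hcA : c ∈ A
    · by_cases h0 : IsLocalRing.residue A ⟨c, hcA⟩ = 0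
      · exact Or.inl ⟨⟨c, hcA⟩, rfl, h0⟩
      · exact Or.inr (Or.inr ⟨⟨c, hcA⟩, rfl, h0⟩)
    · right; left
      refine ⟨⟨c⁻¹, h⟩, rfl, ?_⟩
      by_contra h0
      have hu : IsUnit (⟨c⁻¹, h⟩ : A) := (IsLocalRing.residue_ne_zero_iff_isUnit _).mp h0
      obtain ⟨u, hu⟩ := hu
      apply hcA
      have : c = ((u⁻¹ : Aˣ) : A) := by
        have h1 : ((u : A) : L) = c⁻¹ := by rw [hu]
        have h2 : ((u : A) : L) * (((u⁻¹ : Aˣ) : A) : L) = 1 := by
          exact congrArg Subtype.val u.mul_inv
        rw [h1] at h2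
        field_simp at h2
        exact h2.symm
      rw [this]
      exact Subtype.mem _

end adm

end Fermat.Agent.S18.CORE6652
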