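import Fermat.Agent.S18.Defs
import Fermat.Agent.S24.A564.PlaceBasic

/-!
# S18 / package CORE (helper6652): generic lemmas on `AlgebraicCurve.Place.ord`  (toolbox T1, T2)
-/

set_option autoImplicit false

namespace Fermat.Agent.S18.CORE6652

open AlgebraicCurve Fermat.Agent.S24.A564.SO

section place

variable {K F : Type*} [Field K] [Field F] [Algebra K F] (v : Place K F)

theorem ord_neg (f : F) : v.ord (-f) = v.ord f := by
  rcases eq_or_ne f 0 with rfl | hf
  · simp
  have h : -f = (-1 : F) * f := by ring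
  have h1 : v.ord (-1 : F) = 0 := by
    have := Place_ord_algebraMap v (-1 : K)
    rwa [map_neg, map_one] at this
  rw [h, v.ord_mul (by simp) hf, h1, zero_add]

theorem ord_const {c : K} : v.ord (algebraMap K F c) = 0 := Place_ord_algebraMap v c

theorem ord_add_ge {f g : F} (hfg : f + g ≠ 0) : min (v.ord f) (v.ord g) ≤ v.ord (f + g) :=
  Place_ord_add_ge v hfg

theorem ord_sub_ge {f g : F} (hfg : f - g ≠ 0) : min (v.ord f) (v.ord g) ≤ v.ord (f - g) := by
  have := ord_add_ge v (f := f) (g := -g) (by rwa [← sub_eq_add_neg])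
  rwa [ord_neg, ← sub_eq_add_neg] at this

/-- ultrametric equality -/
theorem ord_add_eq_of_lt {f g : F} (hf : f ≠ 0) (h : v.ord f < v.ord g) :
    v.ord (f + g) = v.ord f := by
  have hfg : f + g ≠ 0 := by
    intro h0
    have : g = -f := by linear_combination h0
    rw [this, ord_neg] at h
    exact lt_irrefl _ h
  have h1 := ord_add_ge v hfg
  have h2 := ord_sub_ge v (f := f + g) (g := g) (by simpa using hf)
  rw [add_sub_cancel_right] at h2
  rw [min_eq_left h.le] at h1
  rcases le_total (v.ord (f + g)) (v.ord g) with h3 | h3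
  · rw [min_eq_left h3] at h2
    exact le_antisymm h2 h1
  · rw [min_eq_right h3] at h2
    exact absurd h2 (not_le.mpr h)

theorem add_ne_zero_of_ord_lt {f g : F} (h : v.ord f < v.ord g) : f + g ≠ 0 := by
  intro h0
  have : g = -f := by linear_combination h0
  rw [this, ord_neg] at h
  exact lt_irrefl _ h

theorem ord_pow (f : F) (n : ℕ) : v.ord (f ^ n) = n * v.ord f := by
  have := v.ord_zpow f n
  rwa [zpow_natCast] at this

theorem ord_div {f g : F} (hf : f ≠ 0) (hg : g ≠ 0) : v.ord (f / g) = v.ord f - v.ord g := by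
  rw [div_eq_mul_inv, v.ord_mul hf (inv_ne_zero hg), v.ord_inv]; ring

/-- An element of the maximal ideal has positive order. -/
theorem one_le_ord_of_mem_maximalIdeal (x : v.toValuationSubring)
    (hx : x ∈ IsLocalRing.maximalIdeal v.toValuationSubring) (hx0 : (x : F) ≠ 0) :
    1 ≤ v.ord (x : F) := by
  have h0 : 0 ≤ v.ord (x : F) := Place_ord_nonneg_of_mem v x.2
  by_contra hlt
  have h1 : v.ord (x : F) = 0 := by omega
  have hinv : (x : F)⁻¹ ∈ v.toValuationSubring :=
    Place_mem_of_ord_nonneg v (by rw [v.ord_inv, h1, neg_zero])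
  have hu : IsUnit x := by
    refine IsUnit.of_mul_eq_one ⟨(x : F)⁻¹, hinv⟩ ?_
    ext
    simp [hx0]
  exact (IsLocalRing.mem_maximalIdeal x).mp hx hu

/-- Evaluation at a place of degree one (T2). -/
theorem exists_const_of_deg_one (hdeg : v.deg = 1) {f : F} (hf : 0 ≤ v.ord f) :
    ∃ c : K, f = algebraMap K F c ∨ 1 ≤ v.ord (f - algebraMap K F c) := by
  have hmem : f ∈ v.toValuationSubring := Place_mem_of_ord_nonneg v hf
  have hfin : Module.finrank K v.ResidueField = 1 := hdeg
  have h1 : (1 : v.ResidueField) ≠ 0 := one_ne_zero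
  obtain ⟨c, hc⟩ := (finrank_eq_one_iff_of_nonzero' (1 : v.ResidueField) h1).mp hfin
    (IsLocalRing.residue v.toValuationSubring ⟨f, hmem⟩)
  refine ⟨c, ?_⟩
  by_cases hfc : f = algebraMap K F c
  · exact Or.inl hfc
  right
  have hres : IsLocalRing.residue v.toValuationSubring
      (⟨f, hmem⟩ - algebraMap K v.toValuationSubring c) = 0 := by
    rw [map_sub, ← hc, Algebra.smul_def, mul_one]
    exact sub_eq_zero.mpr rfl
  have hmem' := (IsLocalRing.residue_eq_zero_iff _).mp hres
  have := one_le_ord_of_mem_maximalIdeal v _ hmem' (by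
    show f - algebraMap K F c ≠ 0
    exact sub_ne_zero.mpr hfc)
  exact this

end place

end Fermat.Agent.S18.CORE6652
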